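import Fermat.Agent.Lib.Cheb.Spec

/-!
# CHEB piece A : `Spec.CountStatement`  (helper836)

For a finite Galois extension `L/ℚ`, a subgroup `H ≤ Gal(L/ℚ)` with fixed field `F = L^H`,
and a rational prime `p` not dividing the discriminant of `L`:

  `#{𝔮 ⊂ 𝓞 F prime, N𝔮 = p} * |H| = ∑_{P | p, D_P ≤ H} |D_P|`.

Route: `p ∤ disc L` gives `e(P/ℤ) = 1`; `|D_P| = e f (P/ℤ)`, `|D_P ∩ H| = e f (P/𝓞 F)`,
multiplicativity of `e`, `f` in the tower and `N𝔮 = p ^ f(𝔮/ℤ)` give
`D_P ≤ H ↔ N(P ∩ 𝓞 F) = p`; the primes over a fixed such `𝔮` form one `H`-orbit and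
the Galois fundamental identity `g * (e f) = |H|` gives the fibre sums.
-/

open NumberField
open scoped Pointwise
open Fermat.Agent.Lib.Cheb.Spec

set_option linter.style.haveILetI false
set_option linter.unusedSectionVars false
set_option linter.unusedVariables false

namespace Fermat.Agent.Lib.Cheb.H836

variable (L : Type) [Field L] [NumberField L] [IsGalois ℚ L] (H : Subgroup (L ≃ₐ[ℚ] L))

theorem isGaloisGroup_field : IsGaloisGroup H (IntermediateField.fixedField H) L :=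
  IsGaloisGroup.subgroup (L ≃ₐ[ℚ] L) ℚ L H

theorem isGaloisGroup_int : IsGaloisGroup H (𝓞 (IntermediateField.fixedField H)) (𝓞 L) :=
  haveI := isGaloisGroup_field L H
  IsGaloisGroup.of_isFractionRing H (𝓞 (IntermediateField.fixedField H)) (𝓞 L)
    (IntermediateField.fixedField H) L

variable {L}

theorem liesOver_of_mem {p : ℕ} (hp : p.Prime) (P : Ideal (𝓞 L)) [hP : P.IsPrime]
    (h : (p : 𝓞 L) ∈ P) : P.LiesOver (Ideal.span {(p : ℤ)}) :=
  (Ideal.liesOver_span_iff hP.ne_top (Nat.prime_iff_prime_int.mp hp)).mpr (by simpa using h)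

theorem ne_bot_of_mem {p : ℕ} (hp : p.Prime) (P : Ideal (𝓞 L)) (h : (p : 𝓞 L) ∈ P) :
    P ≠ ⊥ := by
  rintro rfl
  rw [Ideal.mem_bot] at h
  exact hp.ne_zero (by exact_mod_cast h)

theorem ramIdx_eq_one {p : ℕ} (hp : p.Prime) (hpd : ¬ (p : ℤ) ∣ NumberField.discr L)
    (P : Ideal (𝓞 L)) [P.IsPrime] (hP : (p : 𝓞 L) ∈ P) : P.ramificationIdx ℤ = 1 := by
  have hp' : Prime (p : ℤ) := Nat.prime_iff_prime_int.mp hp
  have := (NumberField.not_dvd_discr_iff_forall_mem L (𝓞 L) hp').mp hpd P inferInstance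
    (by simpa using hP)
  exact Ideal.ramificationIdx_eq_one_of_isUnramifiedAt

theorem card_decomp_eq {p : ℕ} (hp : p.Prime)
    (P : Ideal (𝓞 L)) [P.IsPrime] (hP : (p : 𝓞 L) ∈ P) :
    Nat.card (decomp L P) = P.ramificationIdx ℤ * P.inertiaDeg ℤ := by
  haveI := liesOver_of_mem hp P hP
  haveI : Fact p.Prime := ⟨hp⟩
  rw [decomp, Ideal.card_stabilizer_eq (Ideal.span {(p : ℤ)}) P,
    Ideal.ramificationIdxIn_eq_ramificationIdx _ P (L ≃ₐ[ℚ] L),
    Ideal.inertiaDegIn_eq_inertiaDeg _ P (L ≃ₐ[ℚ] L)]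

theorem under_ne_bot (P : Ideal (𝓞 L)) (hP : P ≠ ⊥) :
    P.under (𝓞 (IntermediateField.fixedField H)) ≠ ⊥ := by
  intro h
  exact hP (Ideal.eq_bot_of_comap_eq_bot h)

theorem stabH_eq (P : Ideal (𝓞 L)) :
    letI := isGaloisGroup_int L H
    MulAction.stabilizer H P = (decomp L P).subgroupOf H := by
  ext h
  simp only [Subgroup.mem_subgroupOf, MulAction.mem_stabilizer_iff]
  rfl

theorem card_stabH_eq (P : Ideal (𝓞 L)) [P.IsPrime] (hP : P ≠ ⊥) :
    Nat.card ((decomp L P).subgroupOf H) =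
      P.ramificationIdx (𝓞 (IntermediateField.fixedField H)) *
        P.inertiaDeg (𝓞 (IntermediateField.fixedField H)) := by
  haveI := isGaloisGroup_int L H
  have hq := under_ne_bot H P hP
  haveI : (P.under (𝓞 (IntermediateField.fixedField H))).IsMaximal :=
    Ideal.IsPrime.isMaximal inferInstance hq
  have key := Ideal.card_stabilizer_eq (G := H) (P.under (𝓞 (IntermediateField.fixedField H))) P
  rw [Ideal.ramificationIdxIn_eq_ramificationIdx _ P H,
    Ideal.inertiaDegIn_eq_inertiaDeg _ P H] at key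
  rw [← key]
  apply congrArg (fun K : Subgroup H => Nat.card K)
  ext h
  simp only [Subgroup.mem_subgroupOf, MulAction.mem_stabilizer_iff]
  rfl

/-- cardinality of `D ⊓ H` seen inside `H`. -/
theorem card_subgroupOf_eq (D : Subgroup (L ≃ₐ[ℚ] L)) :
    Nat.card (D.subgroupOf H) = Nat.card (D ⊓ H : Subgroup (L ≃ₐ[ℚ] L)) := by
  rw [← Subgroup.inf_subgroupOf_right D H]
  exact Nat.card_congr (Subgroup.subgroupOfEquivOfLe (inf_le_right : D ⊓ H ≤ H)).toEquiv

theorem le_iff_card_eq (D : Subgroup (L ≃ₐ[ℚ] L)) :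
    D ≤ H ↔ Nat.card (D.subgroupOf H) = Nat.card D := by
  rw [card_subgroupOf_eq]
  constructor
  · intro h
    rw [inf_eq_left.mpr h]
  · intro h
    have : D ⊓ H = D := Subgroup.eq_of_le_of_card_ge inf_le_left h.ge
    exact inf_eq_left.mp this

/-- The key equivalence: for `p` unramified in `L` and `P | p`,
`D_P ≤ H` iff the prime of `F = L^H` below `P` has norm `p`. -/
theorem decomp_le_iff {p : ℕ} (hp : p.Prime) (hpd : ¬ (p : ℤ) ∣ NumberField.discr L)
    (P : Ideal (𝓞 L)) [P.IsPrime] (hP : (p : 𝓞 L) ∈ P) :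
    decomp L P ≤ H ↔
      Ideal.absNorm (P.under (𝓞 (IntermediateField.fixedField H))) = p := by
  have hPbot := ne_bot_of_mem hp P hP
  have he := ramIdx_eq_one hp hpd P hP
  have h1 := card_decomp_eq hp P hP
  have h2 := card_stabH_eq H P hPbot
  have he' := Ideal.ramificationIdx_tower (R := ℤ)
    (P.under (𝓞 (IntermediateField.fixedField H))) P
  have hf' := Ideal.inertiaDeg_tower (R := ℤ)
    (P.under (𝓞 (IntermediateField.fixedField H))) P
  haveI := liesOver_of_mem hp P hP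
  haveI : (P.under (𝓞 (IntermediateField.fixedField H))).LiesOver (Ideal.span {(p : ℤ)}) :=
    Ideal.LiesOver.tower_bot P _ _
  have hN := Ideal.pow_inertiaDeg p (P.under (𝓞 (IntermediateField.fixedField H)))
  rw [he] at he' h1
  have heq1 : P.ramificationIdx (𝓞 (IntermediateField.fixedField H)) = 1 :=
    Nat.eq_one_of_mul_eq_one_left he'.symm
  rw [heq1, one_mul] at h2
  rw [one_mul] at h1
  have hbpos : 0 < P.inertiaDeg (𝓞 (IntermediateField.fixedField H)) :=
    Ideal.inertiaDeg_pos P _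
  rw [le_iff_card_eq, h1, h2, hf', ← hN]
  constructor
  · intro h
    have : (P.under (𝓞 (IntermediateField.fixedField H))).inertiaDeg ℤ = 1 := by
      have h' : 1 * P.inertiaDeg (𝓞 (IntermediateField.fixedField H)) =
          (P.under (𝓞 (IntermediateField.fixedField H))).inertiaDeg ℤ *
            P.inertiaDeg (𝓞 (IntermediateField.fixedField H)) := by
        rw [one_mul]; exact h
      exact (Nat.eq_of_mul_eq_mul_right hbpos h').symm
    rw [this, pow_one]
  · intro h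
    have : (P.under (𝓞 (IntermediateField.fixedField H))).inertiaDeg ℤ = 1 := by
      have h' : p ^ (P.under (𝓞 (IntermediateField.fixedField H))).inertiaDeg ℤ = p ^ 1 := by
        rw [pow_one]; exact h
      exact Nat.pow_right_injective hp.two_le h'
    rw [this, one_mul]


/-! ### The counting argument -/

variable (L) in
/-- primes of `F = L^H` of absolute norm `p`, as a set. -/
def normSet (p : ℕ) : Set (Ideal (𝓞 (IntermediateField.fixedField H))) :=
  {𝔮 | 𝔮.IsPrime ∧ Ideal.absNorm 𝔮 = p}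

theorem normSet_finite (p : ℕ) : (normSet L H p).Finite :=
  (Ideal.finite_setOfPred_absNorm_eq p).subset (fun 𝔮 h => h.2)

theorem primeCount_eq_ncard (p : ℕ) :
    primeCount (IntermediateField.fixedField H) p = (normSet L H p).ncard := by
  rfl

theorem primesOver_finite' (𝔮 : Ideal (𝓞 (IntermediateField.fixedField H))) :
    (𝔮.primesOver (𝓞 L)).Finite :=
  Algebra.QuasiFinite.finite_primesOver 𝔮

theorem natCast_mem_of_absNorm_eq {p : ℕ} (𝔮 : Ideal (𝓞 (IntermediateField.fixedField H)))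
    (h : Ideal.absNorm 𝔮 = p) : (p : 𝓞 (IntermediateField.fixedField H)) ∈ 𝔮 := by
  rw [← h]
  exact Ideal.absNorm_mem 𝔮

theorem natCast_mem_of_liesOver {p : ℕ} (𝔮 : Ideal (𝓞 (IntermediateField.fixedField H)))
    (P : Ideal (𝓞 L)) [P.LiesOver 𝔮] (h : (p : 𝓞 (IntermediateField.fixedField H)) ∈ 𝔮) :
    (p : 𝓞 L) ∈ P := by
  have h' : (p : 𝓞 (IntermediateField.fixedField H)) ∈
      P.under (𝓞 (IntermediateField.fixedField H)) := by
    rw [← Ideal.over_def P 𝔮]; exact h
  simpa [Ideal.under_def] using h'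

theorem primesLe_eq_biUnion {p : ℕ} (hp : p.Prime) (hpd : ¬ (p : ℤ) ∣ NumberField.discr L) :
    primesLe L H p = ⋃ 𝔮 ∈ normSet L H p, 𝔮.primesOver (𝓞 L) := by
  ext P
  simp only [Set.mem_iUnion, exists_prop]
  constructor
  · rintro ⟨hPprime, hpP, hD⟩
    haveI := hPprime
    exact ⟨P.under (𝓞 (IntermediateField.fixedField H)),
      ⟨inferInstance, (decomp_le_iff H hp hpd P hpP).mp hD⟩, hPprime, ⟨rfl⟩⟩
  · rintro ⟨𝔮, ⟨h𝔮prime, h𝔮N⟩, hPprime, hPover⟩
    haveI := hPprime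
    have hpP : (p : 𝓞 L) ∈ P :=
      natCast_mem_of_liesOver H 𝔮 P (natCast_mem_of_absNorm_eq H 𝔮 h𝔮N)
    refine ⟨hPprime, hpP, (decomp_le_iff H hp hpd P hpP).mpr ?_⟩
    rw [← Ideal.over_def P 𝔮]; exact h𝔮N

theorem pairwiseDisjoint_primesOver (s : Set (Ideal (𝓞 (IntermediateField.fixedField H)))) :
    s.PairwiseDisjoint (fun 𝔮 => 𝔮.primesOver (𝓞 L)) := by
  intro 𝔮 _ 𝔮' _ hne
  rw [Function.onFun, Set.disjoint_left]
  rintro P ⟨_, h1⟩ ⟨_, h2⟩
  exact hne (h1.over.trans h2.over.symm)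

theorem fiber_sum {p : ℕ} (hp : p.Prime) (hpd : ¬ (p : ℤ) ∣ NumberField.discr L)
    (𝔮 : Ideal (𝓞 (IntermediateField.fixedField H))) (h𝔮 : 𝔮 ∈ normSet L H p) :
    ∑ᶠ P ∈ 𝔮.primesOver (𝓞 L), Nat.card (decomp L P) = Nat.card H := by
  haveI := isGaloisGroup_int L H
  haveI := h𝔮.1
  have hfun : ∀ P ∈ 𝔮.primesOver (𝓞 L),
      Nat.card (decomp L P) = 𝔮.ramificationIdxIn (𝓞 L) * 𝔮.inertiaDegIn (𝓞 L) := by
    rintro P ⟨hPprime, hPover⟩
    haveI := hPprime
    haveI := hPover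
    have hpP : (p : 𝓞 L) ∈ P :=
      natCast_mem_of_liesOver H 𝔮 P (natCast_mem_of_absNorm_eq H 𝔮 h𝔮.2)
    have hle : decomp L P ≤ H :=
      (decomp_le_iff H hp hpd P hpP).mpr (by rw [← Ideal.over_def P 𝔮]; exact h𝔮.2)
    rw [← (le_iff_card_eq H _).mp hle, card_stabH_eq H P (ne_bot_of_mem hp P hpP),
      Ideal.ramificationIdxIn_eq_ramificationIdx 𝔮 P H,
      Ideal.inertiaDegIn_eq_inertiaDeg 𝔮 P H]
  rw [finsum_mem_congr rfl hfun,
    finsum_mem_eq_finite_toFinset_sum _ (primesOver_finite' H 𝔮), Finset.sum_const,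
    smul_eq_mul, ← Set.ncard_eq_toFinset_card _ (primesOver_finite' H 𝔮)]
  exact Ideal.ncard_primesOver_mul_ramificationIdxIn_mul_inertiaDegIn 𝔮 (𝓞 L) H

theorem count_main {p : ℕ} (hp : p.Prime) (hpd : ¬ (p : ℤ) ∣ NumberField.discr L) :
    primeCount (IntermediateField.fixedField H) p * Nat.card H = decompWeight L H p := by
  rw [decompWeight,
    finsum_set_coe_eq_finsum_mem (s := primesLe L H p) (f := fun P => Nat.card (decomp L P)),
    primesLe_eq_biUnion H hp hpd,
    finsum_mem_biUnion (pairwiseDisjoint_primesOver H _) (normSet_finite H p)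
      (fun 𝔮 _ => primesOver_finite' H 𝔮),
    finsum_mem_congr rfl (fun 𝔮 h𝔮 => fiber_sum H hp hpd 𝔮 h𝔮),
    finsum_mem_eq_finite_toFinset_sum _ (normSet_finite H p), Finset.sum_const, smul_eq_mul,
    ← Set.ncard_eq_toFinset_card (normSet L H p) (normSet_finite H p), primeCount_eq_ncard]

/-- **Piece A of CHEB**: the frozen `Spec.CountStatement`. -/
theorem countStatement : Spec.CountStatement := by
  intro L _ _ _ H
  refine ⟨(NumberField.discr L).natAbs.primeFactors, fun p hp hpB => ?_⟩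
  have hpd : ¬ (p : ℤ) ∣ NumberField.discr L := by
    intro h
    apply hpB
    rw [Nat.mem_primeFactors]
    refine ⟨hp, Int.natCast_dvd.mp h, ?_⟩
    rw [Ne, Int.natAbs_eq_zero]
    exact NumberField.discr_ne_zero L
  exact count_main H hp hpd

end Fermat.Agent.Lib.Cheb.H836
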